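import Mathlib.NumberTheory.NumberField.Units.Regulator
import Mathlib.NumberTheory.NumberField.InfinitePlace.Ramification
import Mathlib.NumberTheory.NumberField.InfinitePlace.TotallyRealComplex
import Mathlib.FieldTheory.Galois.Basic

/-!
# Minkowski's unit theorem

Let `K/ℚ` be Galois and `u` a unit with `|u|_v < 1` at every place `v` but `w₁`. The places are the
translates `g • w₁`, and the conjugate `g u` is small at every place but that one, so the matrix of
their logarithms is dominated by its diagonal and they have maximal rank. For totally real `K` the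
translates are distinct, which leaves the norm as the only relation.
-/

set_option autoImplicit false
set_option linter.style.haveILetI false
set_option linter.unusedSectionVars false

noncomputable section

namespace FA.MinkowskiUnit

open NumberField NumberField.Units NumberField.Units.dirichletUnitTheorem Module Finset
open scoped Pointwise

variable {K : Type*} [Field K] [NumberField K]

/-- The conjugate of a unit. -/
def conjUnit (g : K ≃ₐ[ℚ] K) : (𝓞 K)ˣ →* (𝓞 K)ˣ :=
  _root_.Units.map (RingOfIntegers.mapRingEquiv g.toRingEquiv).toRingHom.toMonoidHom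

theorem conjUnit_val (g : K ≃ₐ[ℚ] K) (u : (𝓞 K)ˣ) :
    ((conjUnit g u : 𝓞 K) : K) = g ((u : 𝓞 K) : K) := rfl

/-- The logarithm at a place. -/
def logPlace (v : InfinitePlace K) (u : (𝓞 K)ˣ) : ℝ := Real.log (v ((u : 𝓞 K) : K))

theorem logPlace_conjUnit (v : InfinitePlace K) (g : K ≃ₐ[ℚ] K) (u : (𝓞 K)ˣ) :
    logPlace v (conjUnit g u) = logPlace (g⁻¹ • v) u := by
  rw [logPlace, logPlace, conjUnit_val, InfinitePlace.smul_apply]
  rfl

theorem logPlace_mul (v : InfinitePlace K) (x y : (𝓞 K)ˣ) :
    logPlace v (x * y) = logPlace v x + logPlace v y := by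
  simp only [logPlace, _root_.Units.val_mul, map_mul]
  exact Real.log_mul (Units.pos_at_place x v).ne' (Units.pos_at_place y v).ne'

theorem logPlace_zpow (v : InfinitePlace K) (x : (𝓞 K)ˣ) (a : ℤ) :
    logPlace v (x ^ a) = a * logPlace v x := by
  change Real.log (v (algebraMap (𝓞 K) K ((x ^ a : (𝓞 K)ˣ) : 𝓞 K))) = _
  rw [Units.coe_zpow (K := K) x a, map_zpow₀, Real.log_zpow, logPlace]

theorem logPlace_prod {ι : Type*} (s : Finset ι) (v : InfinitePlace K) (x : ι → (𝓞 K)ˣ) :
    logPlace v (∏ i ∈ s, x i) = ∑ i ∈ s, logPlace v (x i) := by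
  classical
  induction s using Finset.induction_on with
  | empty => simp [logPlace]
  | insert a s ha ih => rw [prod_insert ha, sum_insert ha, logPlace_mul, ih]

theorem mem_torsion_iff_logPlace (x : (𝓞 K)ˣ) :
    x ∈ Units.torsion K ↔ ∀ v, logPlace v x = 0 := by
  rw [Units.mem_torsion]
  refine forall_congr' fun v => ⟨fun h => by rw [logPlace, h, Real.log_one], fun h => ?_⟩
  have hp : 0 < v ((x : 𝓞 K) : K) := Units.pos_at_place x v
  rcases Real.log_eq_zero.1 h with h | h | h <;> linarith

variable [IsGalois ℚ K]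

theorem exists_smul_eq (w w' : InfinitePlace K) : ∃ g : K ≃ₐ[ℚ] K, g • w = w' :=
  InfinitePlace.exists_smul_eq_of_comap_eq (k := ℚ) (Subsingleton.elim _ _)

open scoped Classical in
/-- **Minkowski**: the conjugates of a unit small away from one place have finite index. -/
theorem closure_conjUnit_finiteIndex {w₁ : InfinitePlace K} {u : (𝓞 K)ˣ}
    (hu : ∀ v, v ≠ w₁ → logPlace v u < 0) :
    (Subgroup.closure (Set.range fun g : K ≃ₐ[ℚ] K => conjUnit g u)).FiniteIndex := by
  choose g hg using fun w : InfinitePlace K => exists_smul_eq w₁ w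
  have hneg : ∀ w v : InfinitePlace K, v ≠ w → logPlace v (conjUnit (g w) u) < 0 := fun w v hv => by
    rw [logPlace_conjUnit]
    exact hu _ fun h => hv (by rw [← hg w, ← h, smul_inv_smul])
  let U : {w : InfinitePlace K // w ≠ w₀} → (𝓞 K)ˣ := fun w => conjUnit (g w.1) u
  let B := Pi.basisFun ℝ {w : InfinitePlace K // w ≠ w₀}
  let x := fun w => logEmbedding K (Additive.ofMul (U w))
  have hdet : B.det x ≠ 0 := by
    rw [Basis.det_apply]
    refine det_ne_zero_of_sum_col_lt_diag (fun w => ?_)
    simp_rw [Real.norm_eq_abs, B, Basis.coePiBasisFun.toMatrix_eq_transpose, Matrix.transpose_apply]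
    rw [← sub_pos, sum_congr rfl (fun v hv => abs_of_neg ?_), sum_neg_distrib, sub_neg_eq_add,
      sum_erase_eq_sub (mem_univ _), ← add_comm_sub]
    · refine add_pos_of_nonneg_of_pos ?_ ?_
      · rw [sub_nonneg]
        exact le_abs_self _
      · rw [sum_logEmbedding_component]
        exact mul_pos_of_neg_of_neg (neg_lt_zero.2 (Nat.cast_pos.2 InfinitePlace.mult_pos))
          (hneg w.1 w₀ w.2.symm)
    · exact mul_neg_of_pos_of_neg (Nat.cast_pos.2 InfinitePlace.mult_pos)
        (hneg w.1 v.1 (Subtype.ext_iff.not.mp (ne_of_mem_erase hv)))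
  have hli : LinearIndependent ℝ x := ((Basis.is_basis_iff_det B).2 (isUnit_iff_ne_zero.2 hdet)).1
  have hmax : IsMaxRank fun i : Fin (Units.rank K) => U (equivFinRank K i) :=
    (linearIndependent_equiv (equivFinRank K)).2 hli
  haveI := isMaxRank_iff_closure_finiteIndex.1 hmax
  refine Subgroup.finiteIndex_of_le (Subgroup.closure_mono ?_)
    (H := Subgroup.closure (Set.range fun i : Fin (Units.rank K) => U (equivFinRank K i)))
  rintro _ ⟨i, rfl⟩
  exact ⟨_, rfl⟩

variable [IsTotallyReal K]

/-- Over a totally real field the translates of a place are distinct. -/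
theorem eq_one_of_smul_eq {g : K ≃ₐ[ℚ] K} {w : InfinitePlace K} (h : g • w = w) : g = 1 := by
  have hsymm : g.symm = 1 := by
    have hw : ComplexEmbedding.IsReal w.embedding :=
      InfinitePlace.isReal_iff.1 (IsTotallyReal.isReal w)
    conv_lhs at h => rw [← InfinitePlace.mk_embedding w, InfinitePlace.smul_mk]
    conv_rhs at h => rw [← InfinitePlace.mk_embedding w]
    have key : w.embedding.comp (g.symm : K →+* K) = w.embedding := by
      rcases InfinitePlace.mk_eq_iff.1 h with h | h
      · exact h
      · calc _ = ComplexEmbedding.conjugate (ComplexEmbedding.conjugate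
              (w.embedding.comp (g.symm : K →+* K))) := (star_star _).symm
          _ = _ := by rw [h]; exact hw
    exact AlgEquiv.ext fun y => w.embedding.injective (RingHom.congr_fun key y)
  rw [← AlgEquiv.symm_symm g, hsymm]
  rfl

/-- The only relations are the multiples of the norm. -/
theorem prod_mem_torsion_iff {w₁ : InfinitePlace K} {u : (𝓞 K)ˣ}
    (hu : ∀ v, v ≠ w₁ → logPlace v u < 0) (a : (K ≃ₐ[ℚ] K) → ℤ) :
    ∏ g, conjUnit g u ^ a g ∈ Units.torsion K ↔ ∀ g h, a g = a h := by
  classical
  have hinj : Function.Injective fun g : K ≃ₐ[ℚ] K => g • w₁ := fun g h e => by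
    have : (h⁻¹ * g) • w₁ = w₁ := by
      rw [mul_smul]
      exact inv_smul_eq_iff.2 e
    exact (inv_mul_eq_one.1 (eq_one_of_smul_eq this)).symm
  have hbij : Function.Bijective fun g : K ≃ₐ[ℚ] K => g • w₁ :=
    ⟨hinj, fun w => exists_smul_eq w₁ w⟩
  have hsum : ∀ v, ∑ g, logPlace v (conjUnit g u) = 0 := fun v => by
    obtain ⟨h, rfl⟩ := hbij.2 v
    rw [← sum_mult_mul_log u]
    refine Fintype.sum_bijective (fun g => g⁻¹ • (h • w₁)) ?_ _ _ fun g => ?_
    · have e : (fun g : K ≃ₐ[ℚ] K => g⁻¹ • (h • w₁)) =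
          (fun g => g • w₁) ∘ fun g => g⁻¹ * h := funext fun g => (mul_smul _ _ _).symm
      rw [e]
      exact hbij.comp ⟨fun g g' e => inv_injective (mul_right_cancel e),
        fun g => ⟨h * g⁻¹, by simp⟩⟩
    · rw [logPlace_conjUnit, logPlace,
        IsTotallyReal.mult_eq, Nat.cast_one, one_mul]
  rw [mem_torsion_iff_logPlace]
  constructor
  · intro h0
    obtain ⟨g₀, -, hmax⟩ := exists_max_image univ a univ_nonempty
    suffices hall : ∀ g, a g = a g₀ from fun g h => (hall g).trans (hall h).symm
    have h1 := h0 (g₀ • w₁)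
    simp only [logPlace_prod, logPlace_zpow] at h1
    have h2 : ∑ g, ((a g : ℝ) - a g₀) * logPlace (g₀ • w₁) (conjUnit g u) = 0 := by
      simp only [sub_mul, sum_sub_distrib, h1, ← mul_sum, hsum, mul_zero, sub_zero]
    have hneg : ∀ g, g ≠ g₀ → logPlace (g₀ • w₁) (conjUnit g u) < 0 := fun g hg => by
      rw [logPlace_conjUnit]
      exact hu _ fun e => hg (hinj (inv_smul_eq_iff.1 e)).symm
    have hnn : ∀ g ∈ univ, 0 ≤ ((a g : ℝ) - a g₀) * logPlace (g₀ • w₁) (conjUnit g u) := by
      intro g _
      rcases eq_or_ne g g₀ with rfl | hg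
      · simp
      · exact mul_nonneg_of_nonpos_of_nonpos
          (sub_nonpos.2 (Int.cast_le.2 (hmax g (mem_univ g)))) (hneg g hg).le
    intro g
    rcases eq_or_ne g g₀ with rfl | hg
    · rfl
    · have h3 := (mul_eq_zero.1 ((sum_eq_zero_iff_of_nonneg hnn).1 h2 g (mem_univ g))).resolve_right
        (hneg g hg).ne
      exact Int.cast_injective (sub_eq_zero.1 h3)
  · intro hconst v
    simp only [logPlace_prod, logPlace_zpow, hconst _ 1, ← mul_sum, hsum, mul_zero]

/-- The unit generates the field. -/
theorem adjoin_eq_top {w₁ : InfinitePlace K} {u : (𝓞 K)ˣ}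
    (hu : ∀ v, v ≠ w₁ → logPlace v u < 0) :
    IntermediateField.adjoin ℚ {((u : 𝓞 K) : K)} = ⊤ := by
  classical
  set F := IntermediateField.adjoin ℚ {((u : 𝓞 K) : K)}
  have hfix : F.fixingSubgroup = ⊥ := by
    rw [Subgroup.eq_bot_iff_forall]
    intro g hg
    by_contra hg1
    have hgu : conjUnit g u = u := _root_.Units.ext (RingOfIntegers.ext
      ((IntermediateField.mem_fixingSubgroup_iff F g).1 hg _
        (IntermediateField.mem_adjoin_simple_self ℚ _)))
    set v := g⁻¹ • w₁
    have hv : v ≠ w₁ := fun e => hg1 (inv_eq_one.1 (eq_one_of_smul_eq e))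
    have h1 : logPlace w₁ u = logPlace v u := by
      rw [← logPlace_conjUnit, hgu]
    have h2 : ∑ w, (InfinitePlace.mult w : ℝ) * logPlace w u = 0 := sum_mult_mul_log u
    have hw : logPlace w₁ u < 0 := h1 ▸ hu v hv
    refine (Finset.sum_neg (fun w _ => ?_) univ_nonempty).ne h2
    refine mul_neg_of_pos_of_neg (Nat.cast_pos.2 InfinitePlace.mult_pos) ?_
    rcases eq_or_ne w w₁ with rfl | h
    · exact hw
    · exact hu w h
  rw [← IsGalois.fixedField_fixingSubgroup F, hfix, IntermediateField.fixedField_bot]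

end FA.MinkowskiUnit

end
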